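/- Vendored VERBATIM from origin/helper627 (commit 7cdfd3ea), file Fermat/Agent/S25/H627/InvColon.lean, author helper627;
   only the namespace (H807.V627) and the import paths were changed, so that leaf AA6 can be landed
   independently (helper807).  All credit for the contents of this file: helper627. -/
import Mathlib

/-!
# Row S25, block ABEL (AB-ALG, leaf AA6 `abelDatum_surj`): invertible modules and colon ideals
(helper627).  Pure commutative algebra, Mathlib only.

For an invertible module `M` over a commutative ring `R`: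
* `dual_smul_comm` : `ψ m • m' = ψ m' • m` (rank one);
* `colon_smul_top` : every submodule `M'` of `M` is `(M' : M) • M`;
* `colon_smul_top_eq`, `ideal_eq_of_smul_top_eq` : `(A • M : M) = A`, cancellation;
* `nonempty_quotient_equiv_colon`, `finrank_quotient_eq_colon` : `M / M' ≃ R / (M' : M)` when the
  right-hand side is semilocal (`dim_K M/M' = dim_K R/(M' : M)`);
* `homSMul I N : N → Hom(I, N)`, `colon_range_homSMul` : the colon ideal of `N ⊆ Hom(I, N)` is `I`;
* `divMap s : N → Hom(I, E)`, `n ↦ (c ↦ s⁻¹ (c • n))` for an injective `s : E → N` with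
  `range s = I • N`, and `divMap_bijective` (Dedekind domain, `I ≠ 0`).
-/

set_option autoImplicit false
set_option linter.style.haveILetI false

namespace Fermat.Agent.S25.H807.V627

open Module TensorProduct

section RankOne

variable {R M : Type*} [CommRing R] [AddCommGroup M] [Module R M] [Module.Invertible R M]

/-- Rank one identity in an invertible module: `ψ(m) m' = ψ(m') m`. -/
theorem dual_smul_comm (ψ : M →ₗ[R] R) (m m' : M) : ψ m • m' = ψ m' • m := by
  have h := congrArg (TensorProduct.lift ((LinearMap.lsmul R M).comp ψ))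
    (Module.Invertible.tmul_comm (R := R) (m₁ := m) (m₂ := m'))
  simpa using h

/-- The values of linear forms on an invertible module generate the unit ideal. -/
theorem eq_top_of_forall_dual_mem (J : Ideal R) (h : ∀ (ψ : M →ₗ[R] R) (m : M), ψ m ∈ J) :
    J = ⊤ := by
  obtain ⟨S, hS⟩ := ((Module.Invertible.linearEquiv R M).symm 1).exists_finset
  replace hS : (1 : R) = ∑ i ∈ S, i.1 i.2 := by
    simpa [LinearEquiv.symm_apply_eq, Module.Invertible.linearEquiv] using hS
  rw [Ideal.eq_top_iff_one, hS]
  exact Ideal.sum_mem _ fun i _ => h i.1 i.2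

/-- **Colon lemma.** A submodule `M'` of an invertible module `M` is `(M' : M) • M`. -/
theorem colon_smul_top (M' : Submodule R M) :
    (M'.colon Set.univ) • (⊤ : Submodule R M) = M' := by
  apply le_antisymm
  · rw [Submodule.smul_le]
    intro r hr m _
    exact Submodule.mem_colon.mp hr m (Set.mem_univ m)
  · intro m hm
    have key : ((M'.colon Set.univ) • (⊤ : Submodule R M)).colon {m} = ⊤ := by
      apply eq_top_of_forall_dual_mem (M := M)
      intro ψ n
      rw [Submodule.mem_colon_singleton, dual_smul_comm ψ n m]
      refine Submodule.smul_mem_smul ?_ Submodule.mem_top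
      rw [Submodule.mem_colon]
      intro n' _
      rw [dual_smul_comm ψ m n']
      exact M'.smul_mem _ hm
    have h1 : (1 : R) ∈ ((M'.colon Set.univ) • (⊤ : Submodule R M)).colon {m} := by
      rw [key]; trivial
    simpa using h1

/-- For an ideal `I` with semilocal quotient, `M / I M ≃ R / I` (non-canonically). -/
theorem nonempty_quotient_smul_top_equiv (I : Ideal R) [Finite (MaximalSpectrum (R ⧸ I))] :
    Nonempty ((M ⧸ (I • ⊤ : Submodule R M)) ≃ₗ[R] (R ⧸ I)) := by
  haveI : Module.Invertible (R ⧸ I) ((R ⧸ I) ⊗[R] M) := inferInstance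
  haveI : Module.Free (R ⧸ I) ((R ⧸ I) ⊗[R] M) := inferInstance
  obtain ⟨e⟩ := Module.Invertible.free_iff_linearEquiv.mp
    (inferInstance : Module.Free (R ⧸ I) ((R ⧸ I) ⊗[R] M))
  exact ⟨(TensorProduct.quotTensorEquivQuotSMul M I).symm ≪≫ₗ e.restrictScalars R⟩

omit [Module.Invertible R M] in
/-- A linear form maps `A • M` into `A`. -/
theorem dual_apply_mem_of_mem_smul_top (A : Ideal R) (ψ : M →ₗ[R] R) {m : M}
    (hm : m ∈ (A • ⊤ : Submodule R M)) : ψ m ∈ A := by
  refine Submodule.smul_induction_on hm (fun r hr n _ => ?_) (fun x y hx hy => ?_)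
  · rw [map_smul, smul_eq_mul]
    exact A.mul_mem_right _ hr
  · rw [map_add]
    exact A.add_mem hx hy

/-- **(B)** The colon ideal of `A • M` in an invertible module `M` is `A`. -/
theorem colon_smul_top_eq (A : Ideal R) :
    ((A • ⊤ : Submodule R M)).colon Set.univ = A := by
  apply le_antisymm
  · intro r hr
    rw [Submodule.mem_colon] at hr
    have key : (A : Submodule R R).colon {r} = ⊤ := by
      apply eq_top_of_forall_dual_mem (M := M)
      intro ψ m
      rw [Submodule.mem_colon_singleton, smul_eq_mul, mul_comm, ← smul_eq_mul, ← map_smul]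
      exact dual_apply_mem_of_mem_smul_top A ψ (hr m (Set.mem_univ m))
    have h1 : (1 : R) ∈ (A : Submodule R R).colon {r} := by rw [key]; trivial
    simpa using h1
  · intro r hr
    rw [Submodule.mem_colon]
    intro m _
    exact Submodule.smul_mem_smul hr Submodule.mem_top

/-- Cancellation: `A • M = B • M` implies `A = B` for an invertible module `M`. -/
theorem ideal_eq_of_smul_top_eq {A B : Ideal R}
    (h : (A • ⊤ : Submodule R M) = B • ⊤) : A = B := by
  rw [← colon_smul_top_eq (M := M) A, h, colon_smul_top_eq]

/-- Invertible modules over a domain are torsion-free. -/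
theorem eq_zero_of_smul_eq_zero [IsDomain R] {c : R} (hc : c ≠ 0) {m : M} (h : c • m = 0) :
    m = 0 := by
  by_contra hm
  obtain ⟨ψ, hψ⟩ := Module.Projective.exists_dual_ne_zero R hm
  have : c * ψ m = 0 := by rw [← smul_eq_mul, ← map_smul, h, map_zero]
  rcases mul_eq_zero.mp this with h1 | h1
  · exact hc h1
  · exact hψ h1

/-- **(C)** Dimension of the quotient by a submodule in terms of the colon ideal. -/
theorem nonempty_quotient_equiv_colon (M' : Submodule R M)
    [Finite (MaximalSpectrum (R ⧸ M'.colon Set.univ))] :
    Nonempty ((M ⧸ M') ≃ₗ[R] (R ⧸ M'.colon Set.univ)) := by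
  obtain ⟨e⟩ := nonempty_quotient_smul_top_equiv (M := M) (M'.colon Set.univ)
  exact ⟨Submodule.quotEquivOfEq _ _ (colon_smul_top M').symm ≪≫ₗ e⟩

theorem finrank_quotient_eq_colon {K : Type*} [Field K] [Algebra K R] [Module K M]
    [IsScalarTower K R M] (M' : Submodule R M)
    [Finite (MaximalSpectrum (R ⧸ M'.colon Set.univ))] :
    finrank K (M ⧸ M') = finrank K (R ⧸ M'.colon Set.univ) := by
  obtain ⟨e⟩ := nonempty_quotient_equiv_colon M'
  exact (e.restrictScalars K).finrank_eq

theorem finite_quotient_of_colon {K : Type*} [Field K] [Algebra K R] [Module K M]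
    [IsScalarTower K R M] (M' : Submodule R M)
    [Finite (MaximalSpectrum (R ⧸ M'.colon Set.univ))]
    [Module.Finite K (R ⧸ M'.colon Set.univ)] : Module.Finite K (M ⧸ M') := by
  obtain ⟨e⟩ := nonempty_quotient_equiv_colon M'
  exact Module.Finite.equiv (e.restrictScalars K).symm

/-- Dimension of `M / (T • M)`. -/
theorem finrank_quotient_eq_of_eq_smul_top {K : Type*} [Field K] [Algebra K R] [Module K M]
    [IsScalarTower K R M] (M' : Submodule R M) (T : Ideal R) (h : M' = T • ⊤)
    [Finite (MaximalSpectrum (R ⧸ T))] :
    finrank K (M ⧸ M') = finrank K (R ⧸ T) := by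
  subst h
  obtain ⟨e⟩ := nonempty_quotient_smul_top_equiv (M := M) T
  exact (e.restrictScalars K).finrank_eq

theorem finite_quotient_of_eq_smul_top {K : Type*} [Field K] [Algebra K R] [Module K M]
    [IsScalarTower K R M] (M' : Submodule R M) (T : Ideal R) (h : M' = T • ⊤)
    [Finite (MaximalSpectrum (R ⧸ T))] [Module.Finite K (R ⧸ T)] :
    Module.Finite K (M ⧸ M') := by
  subst h
  obtain ⟨e⟩ := nonempty_quotient_smul_top_equiv (M := M) T
  exact Module.Finite.equiv (e.restrictScalars K).symm

/-- `T • M ≠ 0` for a nonzero ideal `T` and an invertible module `M`. -/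
theorem smul_top_ne_bot {T : Ideal R} (hT : T ≠ ⊥) : (T • ⊤ : Submodule R M) ≠ ⊥ := by
  intro h
  apply hT
  have h0 : ((⊥ : Ideal R) • ⊤ : Submodule R M) = ⊥ := Submodule.bot_smul _
  exact ideal_eq_of_smul_top_eq (M := M) (h.trans h0.symm)

/-- A nonzero linear map from an invertible module to a torsion-free module (e.g. an invertible
module) over a domain is injective. -/
theorem injective_of_ne_zero [IsDomain R] {N : Type*} [AddCommGroup N] [Module R N]
    [Module.Invertible R N] (s : M →ₗ[R] N) (hs : s ≠ 0) : Function.Injective s := by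
  rw [injective_iff_map_eq_zero]
  intro e he
  by_contra he0
  apply hs
  obtain ⟨ψ, hψ⟩ := Module.Projective.exists_dual_ne_zero R he0
  ext e'
  have h1 : ψ e • s e' = 0 := by
    rw [← map_smul, dual_smul_comm ψ e e', map_smul, he, smul_zero]
  simpa using eq_zero_of_smul_eq_zero hψ h1

end RankOne

section HomDef

variable {R : Type*} [CommRing R] (I : Ideal R) (N : Type*) [AddCommGroup N] [Module R N]

/-- The canonical map `N → Hom(I, N)`, `n ↦ (c ↦ c • n)` (inclusion `N ⊆ N(D)`). -/
def homSMul : N →ₗ[R] (I →ₗ[R] N) :=
  ((LinearMap.lsmul R N).comp (Submodule.subtype I)).flip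

@[simp] theorem homSMul_apply (n : N) (c : I) : homSMul I N n c = (c : R) • n := rfl

end HomDef

section Hom

variable {R : Type*} [CommRing R] (I : Ideal R) [Module.Invertible R I]
  (N : Type*) [AddCommGroup N] [Module R N] [Module.Invertible R N]

omit [Module.Invertible R I] in
/-- `Hom` of invertible modules is invertible. -/
theorem invertible_hom (M N : Type*) [AddCommGroup M] [Module R M] [AddCommGroup N]
    [Module R N] [Module.Invertible R M] [Module.Invertible R N] :
    Module.Invertible R (M →ₗ[R] N) :=
  Module.Invertible.congr (LinearEquiv.ofBijective (dualTensorHom R M N) dualTensorHom_bijective)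

/-- **(HC)** The colon ideal of `N ⊆ Hom(I, N)` is `I`. -/
theorem colon_range_homSMul :
    (LinearMap.range (homSMul I N)).colon Set.univ = I := by
  apply le_antisymm
  · intro r hr
    rw [Submodule.mem_colon] at hr
    have key : (I : Submodule R R).colon {r} = ⊤ := by
      apply eq_top_of_forall_dual_mem (M := I)
      intro θ a
      rw [Submodule.mem_colon_singleton]
      have key2 : (I : Submodule R R).colon {θ a • r} = ⊤ := by
        apply eq_top_of_forall_dual_mem (M := N)
        intro ψ n
        rw [Submodule.mem_colon_singleton]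
        obtain ⟨n', hn'⟩ := hr ((LinearMap.toSpanSingleton R N n).comp θ) (Set.mem_univ _)
        have h2 := congrArg (fun h : I →ₗ[R] N => ψ (h a)) hn'
        simp only [homSMul_apply, LinearMap.smul_apply, LinearMap.comp_apply,
          LinearMap.toSpanSingleton_apply, map_smul, smul_eq_mul] at h2
        have h3 : ψ n • θ a • r = (a : R) * ψ n' := by
          rw [h2, smul_eq_mul, smul_eq_mul]; ring
        rw [h3]
        exact I.mul_mem_right _ a.2
      have h1 : (1 : R) ∈ (I : Submodule R R).colon {θ a • r} := by rw [key2]; trivial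
      simpa using h1
    have h1 : (1 : R) ∈ (I : Submodule R R).colon {r} := by rw [key]; trivial
    simpa using h1
  · intro a ha
    rw [Submodule.mem_colon]
    intro h _
    refine ⟨h ⟨a, ha⟩, ?_⟩
    ext c
    simp only [homSMul_apply, LinearMap.smul_apply]
    rw [← map_smul, ← map_smul]
    congr 1
    ext
    simp [mul_comm]

theorem range_homSMul :
    LinearMap.range (homSMul I N) = I • (⊤ : Submodule R (I →ₗ[R] N)) := by
  haveI := invertible_hom (R := R) I N
  conv_lhs => rw [← colon_smul_top (LinearMap.range (homSMul I N))]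
  rw [colon_range_homSMul]

omit [Module.Invertible R I] in
theorem homSMul_injective [IsDomain R] (hI : I ≠ ⊥) : Function.Injective (homSMul I N) := by
  rw [injective_iff_map_eq_zero]
  intro n hn
  obtain ⟨c, hc, hc0⟩ := Submodule.exists_mem_ne_zero_of_ne_bot hI
  have := congrArg (fun h : I →ₗ[R] N => h ⟨c, hc⟩) hn
  simp only [homSMul_apply, LinearMap.zero_apply] at this
  exact eq_zero_of_smul_eq_zero hc0 this

end Hom

section Div

variable {R : Type*} [CommRing R] {E N : Type*} [AddCommGroup E] [Module R E]
  [AddCommGroup N] [Module R N] (s : E →ₗ[R] N) (hs : Function.Injective s)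
  (I : Ideal R) (hI : LinearMap.range s = I • (⊤ : Submodule R N))

include hI in
theorem smul_mem_range_of_mem (c : I) (n : N) : (c : R) • n ∈ LinearMap.range s := by
  rw [hI]; exact Submodule.smul_mem_smul c.2 Submodule.mem_top

/-- Auxiliary: `c ↦ s⁻¹ (c • n)`. -/
noncomputable def divFun (n : N) : I →ₗ[R] E :=
  ((LinearEquiv.ofInjective s hs).symm : LinearMap.range s →ₗ[R] E) ∘ₗ
    LinearMap.codRestrict (LinearMap.range s) (homSMul I N n)
      (fun c => smul_mem_range_of_mem s I hI c n)

theorem s_divFun (n : N) (c : I) : s (divFun s hs I hI n c) = (c : R) • n := by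
  have h := congrArg Subtype.val ((LinearEquiv.ofInjective s hs).apply_symm_apply
    (LinearMap.codRestrict (LinearMap.range s) (homSMul I N n)
      (fun c => smul_mem_range_of_mem s I hI c n) c))
  simp only [LinearEquiv.ofInjective_apply] at h
  exact h

/-- Division by the section `s`: `n ↦ (c ↦ s⁻¹ (c • n))`, the isomorphism
`N ≅ Hom(O(-D), E)` when `s : E → N` has divisor `D`. -/
noncomputable def divMap : N →ₗ[R] (I →ₗ[R] E) where
  toFun n := divFun s hs I hI n
  map_add' m n := by
    ext c
    apply hs
    rw [LinearMap.add_apply, map_add, s_divFun, s_divFun, s_divFun, smul_add]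
  map_smul' r n := by
    ext c
    apply hs
    rw [LinearMap.smul_apply, map_smul, RingHom.id_apply, s_divFun, s_divFun, smul_comm]

theorem s_divMap (n : N) (c : I) : s (divMap s hs I hI n c) = (c : R) • n :=
  s_divFun s hs I hI n c

theorem divMap_comp : (divMap s hs I hI) ∘ₗ s = homSMul I E := by
  ext e c
  apply hs
  rw [LinearMap.comp_apply, s_divMap, homSMul_apply, map_smul]

theorem divMap_injective [IsDomain R] [Module.Invertible R N] (hI0 : I ≠ ⊥) :
    Function.Injective (divMap s hs I hI) := by
  rw [injective_iff_map_eq_zero]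
  intro n hn
  obtain ⟨c, hc, hc0⟩ := Submodule.exists_mem_ne_zero_of_ne_bot hI0
  have h := s_divMap s hs I hI n ⟨c, hc⟩
  rw [hn, LinearMap.zero_apply, map_zero] at h
  exact eq_zero_of_smul_eq_zero hc0 h.symm

theorem divMap_surjective [IsDedekindDomain R] [Module.Invertible R E] [Module.Invertible R I]
    (hI0 : I ≠ ⊥) : Function.Surjective (divMap s hs I hI) := by
  haveI := invertible_hom (R := R) I E
  rw [← LinearMap.range_eq_top]
  set f := divMap s hs I hI with hf
  have h2 : Submodule.map f (LinearMap.range s) = I • (⊤ : Submodule R (I →ₗ[R] E)) := by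
    rw [← LinearMap.range_comp, hf, divMap_comp, range_homSMul]
  have h3 : Submodule.map f (LinearMap.range s) = I • LinearMap.range f := by
    rw [hI, Submodule.map_smul'', Submodule.map_top]
  have h4 := colon_smul_top (LinearMap.range f)
  have h5 : (I * (LinearMap.range f).colon Set.univ) • (⊤ : Submodule R (I →ₗ[R] E)) =
      I • (⊤ : Submodule R (I →ₗ[R] E)) := by
    rw [Submodule.mul_smul, h4, ← h3, h2]
  have h6 : I * (LinearMap.range f).colon Set.univ = I * 1 := by
    rw [mul_one]; exact ideal_eq_of_smul_top_eq h5
  have h7 : (LinearMap.range f).colon Set.univ = 1 :=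
    mul_left_cancel₀ (show I ≠ 0 from hI0) h6
  rw [← h4, h7, Ideal.one_eq_top, Submodule.top_smul]

theorem divMap_bijective [IsDedekindDomain R] [Module.Invertible R E] [Module.Invertible R N]
    [Module.Invertible R I] (hI0 : I ≠ ⊥) : Function.Bijective (divMap s hs I hI) :=
  ⟨divMap_injective s hs I hI hI0, divMap_surjective s hs I hI hI0⟩

end Div

end Fermat.Agent.S25.H807.V627
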