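/- Vendored VERBATIM from origin/helper627 (commit 7cdfd3ea), file Fermat/Agent/S25/H627/DivPoints.lean, author helper627;
   only the namespace (H807.V627) and the import paths were changed, so that leaf AA6 can be landed
   independently (helper807).  All credit for the contents of this file: helper627. -/
import Mathlib

/-!
# Row S25, block ABEL (AB-ALG, `surj`), leaf PTS (helper627)

Pure commutative algebra, Mathlib only.

* `finrank_quotient_mul_of_isMaximal`, `finrank_quotient_mul`: in a Dedekind domain `R` over a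
  field `K`, `dim_K R/(m J) = dim_K R/J + 1` for a maximal ideal `m` with residue field `K` and a
  nonzero ideal `J`.
* `finite_quotient_of_ne_bot`: `R/J` is finite-dimensional (`R` of finite type over an
  algebraically closed `K`).
* `ptIdeal₀`, `ptIdeal₁`, `ptIdeal₀₁`: the ideals on the two charts `Spec R₀`, `Spec R₁` and on
  their intersection `Spec R₀₁` of a *chart point* `(R₀ →ₐ[K] K) ⊕ (R₁ →ₐ[K] K)`.
* `exists_points_of_compatible` (**PTS**): a compatible pair of nonzero ideals `(I₀, I₁)`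
  (`I₀ R₀₁ = I₁ R₀₁`) is the pair of products of the ideals of `n` chart points, where
  `n = dim R₀/I₀ + dim R₁/I₁ - dim R₀₁/I₀ R₀₁`.
-/

set_option autoImplicit false
set_option linter.style.haveILetI false

namespace Fermat.Agent.S25.H807.V627

open Module

section Core

variable {K R : Type*} [Field K] [CommRing R] [IsDedekindDomain R] [Algebra K R]

/-- In a Dedekind domain there is no ideal strictly between `m * J` and `J` (`m` maximal). -/
theorem eq_of_mul_le_of_le {m J L : Ideal R} [hm : m.IsMaximal] (hJ : J ≠ ⊥)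
    (h1 : m * J ≤ L) (h2 : L ≤ J) (h3 : L ≠ m * J) : L = J := by
  obtain ⟨L', rfl⟩ := Ideal.dvd_iff_le.mpr h2
  have hd : J * L' ∣ J * m := by
    rw [mul_comm J m]; exact Ideal.dvd_iff_le.mpr h1
  have hd' : L' ∣ m := (mul_dvd_mul_iff_left (show J ≠ 0 from hJ)).mp hd
  have hle : m ≤ L' := Ideal.dvd_iff_le.mp hd'
  by_cases hL' : L' = ⊤
  · rw [hL', Ideal.mul_top]
  · exact absurd (by rw [hm.eq_of_le hL' hle, mul_comm]) h3

/-- `m * J ≠ J` for a maximal ideal `m` and a nonzero ideal `J` of a Dedekind domain. -/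
theorem mul_ne_self_of_isMaximal {m J : Ideal R} [hm : m.IsMaximal] (hJ : J ≠ ⊥) :
    m * J ≠ J := by
  intro h
  have h' : J * m = J * 1 := by rw [mul_comm, h, mul_one]
  have := mul_left_cancel₀ (show J ≠ 0 from hJ) h'
  exact hm.ne_top (by rw [this, Ideal.one_eq_top])

/-- Key dimension count: `dim_K R/(mJ) = dim_K R/J + 1` for a maximal ideal `m` with residue
field `K` and a nonzero ideal `J` of a Dedekind domain `R`. -/
theorem finrank_quotient_mul_of_isMaximal (m J : Ideal R) [hm : m.IsMaximal]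
    (hres : Function.Surjective (algebraMap K (R ⧸ m))) (hJ : J ≠ ⊥)
    [Module.Finite K (R ⧸ J)] :
    Module.Finite K (R ⧸ (m * J)) ∧ finrank K (R ⧸ (m * J)) = finrank K (R ⧸ J) + 1 := by
  classical
  have hle : m * J ≤ J := Ideal.mul_le_right
  let π : (R ⧸ (m * J)) →ₗ[K] (R ⧸ J) := (Ideal.Quotient.factorₐ K hle).toLinearMap
  have hπ : Function.Surjective π := Ideal.Quotient.factor_surjective hle
  -- an element of `J` not in `m * J`
  obtain ⟨t, htJ, htm⟩ : ∃ t ∈ J, t ∉ m * J := by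
    by_contra hcon
    push Not at hcon
    exact mul_ne_self_of_isMaximal hJ (le_antisymm hle hcon)
  have hL : m * J ⊔ Ideal.span {t} = J := by
    apply eq_of_mul_le_of_le (m := m) hJ le_sup_left
    · exact sup_le hle ((Ideal.span_singleton_le_iff_mem _).mpr htJ)
    · intro h
      exact htm (h ▸ Ideal.mem_sup_right (Ideal.subset_span rfl))
  let τ : R ⧸ (m * J) := Ideal.Quotient.mk _ t
  have hτ : τ ≠ 0 := by
    intro h
    exact htm (Ideal.Quotient.eq_zero_iff_mem.mp h)
  have hker : LinearMap.ker π = K ∙ τ := by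
    apply le_antisymm
    · intro z hz
      obtain ⟨j, rfl⟩ := Ideal.Quotient.mk_surjective z
      have hj : j ∈ J := by
        have : (Ideal.Quotient.mk J) j = 0 := hz
        exact Ideal.Quotient.eq_zero_iff_mem.mp this
      rw [← hL] at hj
      obtain ⟨a, ha, b, hb, rfl⟩ := Submodule.mem_sup.mp hj
      obtain ⟨r, rfl⟩ := Ideal.mem_span_singleton'.mp hb
      obtain ⟨c, hc⟩ := hres (Ideal.Quotient.mk m r)
      have hrc : r - algebraMap K R c ∈ m := by
        rw [← Ideal.Quotient.eq_zero_iff_mem, map_sub, sub_eq_zero, ← hc]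
        rfl
      rw [Submodule.mem_span_singleton]
      refine ⟨c, ?_⟩
      rw [Algebra.smul_def, IsScalarTower.algebraMap_apply K R (R ⧸ (m * J)),
        Ideal.Quotient.algebraMap_eq, ← map_mul, eq_comm, ← sub_eq_zero, ← map_sub,
        Ideal.Quotient.eq_zero_iff_mem]
      have : a + r * t - algebraMap K R c * t = a + (r - algebraMap K R c) * t := by ring
      rw [this]
      exact add_mem ha (Ideal.mul_mem_mul hrc htJ)
    · rw [Submodule.span_singleton_le_iff_mem]
      show π τ = 0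
      exact Ideal.Quotient.eq_zero_iff_mem.mpr htJ
  have hfk : Module.Finite K (LinearMap.ker π) := by
    rw [hker]; infer_instance
  have hfin : Module.Finite K (R ⧸ (m * J)) := by
    have e := π.quotKerEquivOfSurjective hπ
    have : Module.Finite K ((R ⧸ (m * J)) ⧸ LinearMap.ker π) := Module.Finite.equiv e.symm
    exact Module.Finite.of_submodule_quotient (LinearMap.ker π)
  refine ⟨hfin, ?_⟩
  have h1 := LinearMap.finrank_range_add_finrank_ker π
  rw [LinearMap.range_eq_top.mpr hπ, finrank_top, hker, finrank_span_singleton hτ] at h1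
  exact h1.symm

end Core

section Trivial

variable {K R : Type*} [Field K] [CommRing R] [Algebra K R]

theorem finrank_quotient_top : finrank K (R ⧸ (⊤ : Ideal R)) = 0 := by
  haveI : Subsingleton (R ⧸ (⊤ : Ideal R)) := Ideal.Quotient.subsingleton_iff.mpr rfl
  exact finrank_zero_of_subsingleton

theorem finrank_quotient_congr {I J : Ideal R} (h : I = J) :
    finrank K (R ⧸ I) = finrank K (R ⧸ J) := by
  subst h; rfl

end Trivial

section Points

variable {K R : Type*} [Field K] [IsAlgClosed K] [CommRing R] [Algebra K R]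
  [Algebra.FiniteType K R]

/-- Nullstellensatz: residue fields of a f.g. algebra over an algebraically closed field. -/
theorem surjective_algebraMap_quotient (m : Ideal R) [m.IsMaximal] :
    Function.Surjective (algebraMap K (R ⧸ m)) := by
  let _ : Field (R ⧸ m) := Ideal.Quotient.field m
  have hft : Algebra.FiniteType K (R ⧸ m) :=
    Algebra.FiniteType.of_surjective (Ideal.Quotient.mkₐ K m) (Ideal.Quotient.mkₐ_surjective K m)
  have hfin : Module.Finite K (R ⧸ m) := finite_of_finite_type_of_isJacobsonRing K (R ⧸ m)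
  have : Algebra.IsIntegral K (R ⧸ m) := Algebra.IsIntegral.of_finite K (R ⧸ m)
  exact (IsAlgClosed.algebraMap_bijective_of_isIntegral (k := K) (K := R ⧸ m)).2

/-- Every maximal ideal is the kernel of a `K`-point. -/
theorem exists_algHom_ker_eq_of_isMaximal (m : Ideal R) [m.IsMaximal] :
    ∃ φ : R →ₐ[K] K, RingHom.ker φ = m := by
  classical
  let _ : Field (R ⧸ m) := Ideal.Quotient.field m
  have hft : Algebra.FiniteType K (R ⧸ m) :=
    Algebra.FiniteType.of_surjective (Ideal.Quotient.mkₐ K m) (Ideal.Quotient.mkₐ_surjective K m)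
  have hfin : Module.Finite K (R ⧸ m) := finite_of_finite_type_of_isJacobsonRing K (R ⧸ m)
  have : Algebra.IsIntegral K (R ⧸ m) := Algebra.IsIntegral.of_finite K (R ⧸ m)
  have hbij : Function.Bijective (algebraMap K (R ⧸ m)) :=
    IsAlgClosed.algebraMap_bijective_of_isIntegral
  let e : K ≃ₐ[K] (R ⧸ m) := AlgEquiv.ofBijective (Algebra.ofId K (R ⧸ m)) hbij
  refine ⟨(e.symm : (R ⧸ m) →ₐ[K] K).comp (Ideal.Quotient.mkₐ K m), ?_⟩
  ext b
  simp only [RingHom.mem_ker, AlgHom.coe_comp, Function.comp_apply, Ideal.Quotient.mkₐ_eq_mk]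
  rw [← Ideal.Quotient.eq_zero_iff_mem]
  exact map_eq_zero_iff _ e.symm.injective

variable [IsDedekindDomain R]

/-- Quotients of a Dedekind f.g. algebra by nonzero ideals are finite-dimensional. -/
theorem finite_quotient_of_ne_bot (J : Ideal R) (hJ : J ≠ ⊥) : Module.Finite K (R ⧸ J) := by
  classical
  revert hJ
  refine UniqueFactorizationMonoid.induction_on_prime
    (P := fun J : Ideal R => J ≠ ⊥ → Module.Finite K (R ⧸ J)) J ?_ ?_ ?_
  · intro h; exact absurd rfl h
  · intro I hI _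
    rw [Ideal.isUnit_iff] at hI
    subst hI
    infer_instance
  · intro a p ha hp IH _
    have hpm : p.IsMaximal := (Ideal.isPrime_of_prime hp).isMaximal hp.ne_zero
    haveI := IH ha
    exact (finrank_quotient_mul_of_isMaximal p a (surjective_algebraMap_quotient p) ha).1

/-- Dimension count for a product with a maximal ideal. -/
theorem finrank_quotient_mul (m J : Ideal R) [m.IsMaximal] (hJ : J ≠ ⊥) :
    finrank K (R ⧸ (m * J)) = finrank K (R ⧸ J) + 1 := by
  haveI := finite_quotient_of_ne_bot (K := K) J hJ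
  exact (finrank_quotient_mul_of_isMaximal m J (surjective_algebraMap_quotient m) hJ).2

/-- `dim_K R / m ^ n = n` for a nonzero maximal ideal `m`. -/
theorem finrank_quotient_pow (m : Ideal R) [m.IsMaximal] (hm : m ≠ ⊥) (n : ℕ) :
    finrank K (R ⧸ m ^ n) = n := by
  induction n with
  | zero =>
    rw [finrank_quotient_congr (K := K) (pow_zero m), finrank_quotient_congr (K := K)
      (Ideal.one_eq_top (R := R)), finrank_quotient_top]
  | succ n ih =>
    rw [finrank_quotient_congr (K := K) (pow_succ' m n),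
      finrank_quotient_mul m (m ^ n) (pow_ne_zero n (show m ≠ 0 from hm)), ih]

end Points

section Main

variable {K R₀ R₁ : Type*} (R₀₁ : Type*) [Field K]
  [CommRing R₀] [CommRing R₁] [CommRing R₀₁]
  [Algebra K R₀] [Algebra K R₁] [Algebra R₀ R₀₁] [Algebra R₁ R₀₁]

/-- The ideal on the chart `Spec R₀` of a chart point (a `K`-point of `Spec R₀` or of
`Spec R₁`): the kernel, resp. the contraction of the extension of the kernel. -/
def ptIdeal₀ (P : (R₀ →ₐ[K] K) ⊕ (R₁ →ₐ[K] K)) : Ideal R₀ :=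
  P.elim (fun φ => RingHom.ker φ)
    (fun ψ => ((RingHom.ker ψ).map (algebraMap R₁ R₀₁)).comap (algebraMap R₀ R₀₁))

/-- The ideal on the chart `Spec R₁` of a chart point. -/
def ptIdeal₁ (P : (R₀ →ₐ[K] K) ⊕ (R₁ →ₐ[K] K)) : Ideal R₁ :=
  P.elim (fun φ => ((RingHom.ker φ).map (algebraMap R₀ R₀₁)).comap (algebraMap R₁ R₀₁))
    (fun ψ => RingHom.ker ψ)

/-- The ideal on the intersection `Spec R₀₁` of a chart point. -/
def ptIdeal₀₁ (P : (R₀ →ₐ[K] K) ⊕ (R₁ →ₐ[K] K)) : Ideal R₀₁ :=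
  P.elim (fun φ => (RingHom.ker φ).map (algebraMap R₀ R₀₁))
    (fun ψ => (RingHom.ker ψ).map (algebraMap R₁ R₀₁))

@[simp] theorem ptIdeal₀_inl (φ : R₀ →ₐ[K] K) :
    ptIdeal₀ (R₁ := R₁) R₀₁ (Sum.inl φ) = RingHom.ker φ := rfl

@[simp] theorem ptIdeal₀_inr (ψ : R₁ →ₐ[K] K) :
    ptIdeal₀ (R₀ := R₀) R₀₁ (Sum.inr ψ) =
      ((RingHom.ker ψ).map (algebraMap R₁ R₀₁)).comap (algebraMap R₀ R₀₁) := rfl

@[simp] theorem ptIdeal₁_inl (φ : R₀ →ₐ[K] K) :
    ptIdeal₁ (R₁ := R₁) R₀₁ (Sum.inl φ) =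
      ((RingHom.ker φ).map (algebraMap R₀ R₀₁)).comap (algebraMap R₁ R₀₁) := rfl

@[simp] theorem ptIdeal₁_inr (ψ : R₁ →ₐ[K] K) :
    ptIdeal₁ (R₀ := R₀) R₀₁ (Sum.inr ψ) = RingHom.ker ψ := rfl

variable [IsAlgClosed K] [IsDedekindDomain R₁] [Algebra.FiniteType K R₁]

/-- Points at infinity only: an ideal of `R₁` that becomes the unit ideal on the intersection
is a product of ideals of chart points. -/
theorem exists_points_of_map_eq_top (I₁ : Ideal R₁) (h₁ : I₁ ≠ ⊥)
    (hc : I₁.map (algebraMap R₁ R₀₁) = ⊤) :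
    ∃ (n : ℕ) (P : Fin n → (R₀ →ₐ[K] K) ⊕ (R₁ →ₐ[K] K)),
      (⊤ : Ideal R₀) = ∏ j, ptIdeal₀ R₀₁ (P j) ∧ I₁ = ∏ j, ptIdeal₁ R₀₁ (P j) ∧
      n = finrank K (R₁ ⧸ I₁) := by
  classical
  revert h₁ hc
  refine UniqueFactorizationMonoid.induction_on_prime
    (P := fun I₁ : Ideal R₁ => I₁ ≠ ⊥ → I₁.map (algebraMap R₁ R₀₁) = ⊤ →
      ∃ (n : ℕ) (P : Fin n → (R₀ →ₐ[K] K) ⊕ (R₁ →ₐ[K] K)),
        (⊤ : Ideal R₀) = ∏ j, ptIdeal₀ R₀₁ (P j) ∧ I₁ = ∏ j, ptIdeal₁ R₀₁ (P j) ∧
        n = finrank K (R₁ ⧸ I₁)) I₁ ?_ ?_ ?_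
  · intro h; exact absurd rfl h
  · intro I hI _ _
    rw [Ideal.isUnit_iff] at hI
    subst hI
    refine ⟨0, Fin.elim0, ?_, ?_, ?_⟩
    · simp
    · simp
    · rw [finrank_quotient_top]
  · intro b q hb hq IH _ hmap
    have hqm : q.IsMaximal := (Ideal.isPrime_of_prime hq).isMaximal hq.ne_zero
    rw [Ideal.map_mul] at hmap
    have hq1 : q.map (algebraMap R₁ R₀₁) = ⊤ := by
      rw [eq_top_iff, ← hmap]; exact Ideal.mul_le_left
    have hb1 : b.map (algebraMap R₁ R₀₁) = ⊤ := by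
      rw [eq_top_iff, ← hmap]; exact Ideal.mul_le_right
    obtain ⟨n, P, e0, e1, en⟩ := IH hb hb1
    obtain ⟨ψ, hψ⟩ := exists_algHom_ker_eq_of_isMaximal (K := K) q
    refine ⟨n + 1, Fin.cons (Sum.inr ψ) P, ?_, ?_, ?_⟩
    · rw [Fin.prod_univ_succ]
      simp only [Fin.cons_zero, Fin.cons_succ, ptIdeal₀_inr, hψ, hq1, Ideal.comap_top, ← e0,
        Ideal.top_mul]
    · rw [Fin.prod_univ_succ]
      simp only [Fin.cons_zero, Fin.cons_succ, ptIdeal₁_inr, hψ, ← e1]
    · rw [finrank_quotient_mul q b hb, ← en]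

/-- **PTS.**  A compatible pair of nonzero ideals on the two charts of a curve over an
algebraically closed field is the pair of ideals of a finite family of chart points, and the
number of points is the degree `dim R₀/I₀ + dim R₁/I₁ - dim R₀₁/I₀₁`. -/
theorem exists_points_of_compatible [IsDedekindDomain R₀] [Algebra.FiniteType K R₀]
    [Algebra K R₀₁] [IsScalarTower K R₀ R₀₁]
    (x : R₀) (y : R₁) [IsLocalization.Away x R₀₁] [IsLocalization.Away y R₀₁] (hx : x ≠ 0)
    (I₀ : Ideal R₀) (I₁ : Ideal R₁) (h₀ : I₀ ≠ ⊥) (h₁ : I₁ ≠ ⊥)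
    (hc : I₀.map (algebraMap R₀ R₀₁) = I₁.map (algebraMap R₁ R₀₁)) :
    ∃ (n : ℕ) (P : Fin n → (R₀ →ₐ[K] K) ⊕ (R₁ →ₐ[K] K)),
      I₀ = ∏ j, ptIdeal₀ R₀₁ (P j) ∧ I₁ = ∏ j, ptIdeal₁ R₀₁ (P j) ∧
      (n : ℤ) = finrank K (R₀ ⧸ I₀) + finrank K (R₁ ⧸ I₁)
        - finrank K (R₀₁ ⧸ I₀.map (algebraMap R₀ R₀₁)) := by
  classical
  have hM₀ : Submonoid.powers x ≤ nonZeroDivisors R₀ :=
    Submonoid.powers_le.mpr (mem_nonZeroDivisors_of_ne_zero hx)
  haveI : IsDomain R₀₁ := IsLocalization.isDomain_of_le_nonZeroDivisors (S := R₀₁) hM₀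
  haveI : IsDedekindDomain R₀₁ := IsLocalization.isDedekindDomain R₀ hM₀ R₀₁
  haveI : Algebra.FiniteType K R₀₁ :=
    Algebra.FiniteType.trans (S := R₀) inferInstance
      (IsLocalization.finiteType_of_monoid_fg (Submonoid.powers x) R₀₁)
  have hinj₀ : Function.Injective (algebraMap R₀ R₀₁) := IsLocalization.injective R₀₁ hM₀
  revert I₁
  revert h₀
  refine UniqueFactorizationMonoid.induction_on_prime
    (P := fun I₀ : Ideal R₀ => I₀ ≠ ⊥ → ∀ I₁ : Ideal R₁, I₁ ≠ ⊥ →
      I₀.map (algebraMap R₀ R₀₁) = I₁.map (algebraMap R₁ R₀₁) →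
      ∃ (n : ℕ) (P : Fin n → (R₀ →ₐ[K] K) ⊕ (R₁ →ₐ[K] K)),
        I₀ = ∏ j, ptIdeal₀ R₀₁ (P j) ∧ I₁ = ∏ j, ptIdeal₁ R₀₁ (P j) ∧
        (n : ℤ) = finrank K (R₀ ⧸ I₀) + finrank K (R₁ ⧸ I₁)
          - finrank K (R₀₁ ⧸ I₀.map (algebraMap R₀ R₀₁))) I₀ ?_ ?_ ?_
  · intro h; exact absurd rfl h
  · intro I hI _ I₁ h₁ hc
    rw [Ideal.isUnit_iff] at hI
    subst hI
    rw [Ideal.map_top] at hc
    obtain ⟨n, P, e0, e1, en⟩ := exists_points_of_map_eq_top (K := K) (R₀ := R₀) R₀₁ I₁ h₁ hc.symm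
    refine ⟨n, P, e0, e1, ?_⟩
    rw [finrank_quotient_top, finrank_quotient_congr (K := K) (Ideal.map_top (algebraMap R₀ R₀₁)),
      finrank_quotient_top, ← en]
    simp
  · intro a p ha hp IH _ I₁ h₁ hc
    have hpp : p.IsPrime := Ideal.isPrime_of_prime hp
    have hpm : p.IsMaximal := hpp.isMaximal hp.ne_zero
    obtain ⟨φ, hφ⟩ := exists_algHom_ker_eq_of_isMaximal (K := K) p
    have hmapa : a.map (algebraMap R₀ R₀₁) ≠ ⊥ := by
      rwa [Ne, Ideal.map_eq_bot_iff_of_injective hinj₀]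
    rw [Ideal.map_mul] at hc
    by_cases hp1 : p.map (algebraMap R₀ R₀₁) = ⊤
    · -- the point is not on the intersection
      rw [hp1, Ideal.top_mul] at hc
      obtain ⟨n, P, e0, e1, en⟩ := IH ha I₁ h₁ hc
      refine ⟨n + 1, Fin.cons (Sum.inl φ) P, ?_, ?_, ?_⟩
      · rw [Fin.prod_univ_succ]
        simp only [Fin.cons_zero, Fin.cons_succ, ptIdeal₀_inl, hφ, ← e0]
      · rw [Fin.prod_univ_succ]
        simp only [Fin.cons_zero, Fin.cons_succ, ptIdeal₁_inl, hφ, hp1, Ideal.comap_top, ← e1,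
          Ideal.top_mul]
      · have h1 : finrank K (R₀₁ ⧸ (p * a).map (algebraMap R₀ R₀₁)) =
            finrank K (R₀₁ ⧸ a.map (algebraMap R₀ R₀₁)) :=
          finrank_quotient_congr (by rw [Ideal.map_mul, hp1, Ideal.top_mul])
        rw [h1, finrank_quotient_mul p a ha]
        push_cast
        linarith
    · -- the point lies on the intersection
      have hdisj : Disjoint (Submonoid.powers x : Set R₀) (p : Set R₀) :=
        (IsLocalization.map_algebraMap_ne_top_iff_disjoint (Submonoid.powers x) R₀₁ p).mp hp1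
      have hp'p : (p.map (algebraMap R₀ R₀₁)).IsPrime :=
        IsLocalization.isPrime_of_isPrime_disjoint (Submonoid.powers x) R₀₁ p hpp hdisj
      have hp'0 : p.map (algebraMap R₀ R₀₁) ≠ ⊥ := by
        rw [Ne, Ideal.map_eq_bot_iff_of_injective hinj₀]; exact hp.ne_zero
      have hp'm : (p.map (algebraMap R₀ R₀₁)).IsMaximal := hp'p.isMaximal hp'0
      set q : Ideal R₁ := (p.map (algebraMap R₀ R₀₁)).comap (algebraMap R₁ R₀₁) with hq
      have hqmap : q.map (algebraMap R₁ R₀₁) = p.map (algebraMap R₀ R₀₁) :=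
        IsLocalization.map_under (Submonoid.powers y) R₀₁ _
      have hqp : q.IsPrime := Ideal.comap_isPrime _ _
      have hq0 : q ≠ ⊥ := by
        intro h
        rw [h, Ideal.map_bot] at hqmap
        exact hp'0 hqmap.symm
      have hqm : q.IsMaximal := hqp.isMaximal hq0
      have hle : I₁ ≤ q := by
        refine Ideal.le_comap_map.trans (Ideal.comap_mono ?_)
        rw [← hc]
        exact Ideal.mul_le_left
      obtain ⟨b, rfl⟩ := Ideal.dvd_iff_le.mpr hle
      have hb : b ≠ ⊥ := right_ne_zero_of_mul h₁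
      rw [Ideal.map_mul, hqmap] at hc
      have hab : a.map (algebraMap R₀ R₀₁) = b.map (algebraMap R₁ R₀₁) :=
        mul_left_cancel₀ (show p.map (algebraMap R₀ R₀₁) ≠ 0 from hp'0) hc
      obtain ⟨n, P, e0, e1, en⟩ := IH ha b hb hab
      refine ⟨n + 1, Fin.cons (Sum.inl φ) P, ?_, ?_, ?_⟩
      · rw [Fin.prod_univ_succ]
        simp only [Fin.cons_zero, Fin.cons_succ, ptIdeal₀_inl, hφ, ← e0]
      · rw [Fin.prod_univ_succ]
        simp only [Fin.cons_zero, Fin.cons_succ, ptIdeal₁_inl, hφ, ← e1, ← hq]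
      · have h1 : finrank K (R₀₁ ⧸ (p * a).map (algebraMap R₀ R₀₁)) =
            finrank K (R₀₁ ⧸ a.map (algebraMap R₀ R₀₁)) + 1 := by
          rw [finrank_quotient_congr (K := K) (Ideal.map_mul (algebraMap R₀ R₀₁) p a)]
          exact finrank_quotient_mul _ _ hmapa
        rw [h1, finrank_quotient_mul p a ha, finrank_quotient_mul q b hb]
        push_cast
        linarith

end Main

end Fermat.Agent.S25.H807.V627
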